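import Mathlib
import Fermat.Agent.LT.T2.H973.ArchSpec

/-!
# Row LT, tower T2, sub-leaf T2.10.08.09 `GenLaplC` (helper655) — OFF-MAIN

Spec bytes: `T2/H973/ArchSpec.lean` = helper973@1d2e30d90 (sha256 6e234a4a), byte-identical copy
(with its imports `T2/H941/SmoSpec.lean` v2 14c4d13e (v1 41255efa also compiles), `T2/Spec.lean`
1b305586, `T3/Spec.lean` 44de320b, `T1/Spec.lean` e8ae48d6, `H556/A0.lean` 66d3374a).

PROVED here: `genLaplC655 : T2.H973.GenLaplC`, VERBATIM: the radial integral equation gives the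
generalised second derivative `k² e^{2s} H(s)`.

* `besJ_bound655`: `‖J(z) - (1 - z²/4)‖ ≤ (2/9) |z|³` for `|z| ≤ 1` (`Complex.exp_bound`, `n = 3`);
* `cosh_bound655`: `|cosh x - 1 - x²/2| ≤ (5/96) x⁴` for `|x| ≤ 1` (`Real.exp_bound`, `n = 4`);
* pointwise: `1 - J(z(t,d)) = (A/4)(d² - t²) + O(d³)` for `|t| ≤ d`, `A = k² e^{2s}`;
* `∫_{-d}^{d} (d² - t²) dt = (4/3) d³`, `H` continuous at `s`.
-/

set_option autoImplicit false

open MeasureTheory
open Fermat.Agent.LT.T2.H973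

noncomputable section

namespace Fermat.Agent.LT.T2.H655

/-! ## The kernel `J` -/

theorem continuous_besJ655 : Continuous besJ := by
  unfold besJ
  refine continuous_const.mul ?_
  apply intervalIntegral.continuous_parametric_intervalIntegral_of_continuous'
  fun_prop

/-- `‖J(z) - (1 - z²/4)‖ ≤ (2/9) |z|³` for `|z| ≤ 1`. -/
theorem besJ_bound655 {z : ℝ} (hz : |z| ≤ 1) :
    ‖besJ z - (1 - ((z ^ 2 / 4 : ℝ) : ℂ))‖ ≤ 2 / 9 * |z| ^ 3 := by
  have hpi : (0 : ℝ) < 2 * Real.pi := by positivity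
  -- the Taylor polynomial
  set p : ℝ → ℂ := fun α => 1 + Complex.I * ((z * Real.cos α : ℝ) : ℂ)
    - ((z ^ 2 / 2 * Real.cos α ^ 2 : ℝ) : ℂ) with hp
  set g : ℝ → ℂ := fun α => Complex.exp (Complex.I * ((z * Real.cos α : ℝ) : ℂ)) with hg
  have hgc : Continuous g := by rw [hg]; fun_prop
  have hpc : Continuous p := by rw [hp]; fun_prop
  have hpt : ∀ α : ℝ, ‖g α - p α‖ ≤ 2 / 9 * |z| ^ 3 := by
    intro α
    have hx : ‖Complex.I * ((z * Real.cos α : ℝ) : ℂ)‖ ≤ |z| := by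
      rw [norm_mul, Complex.norm_I, one_mul, Complex.norm_real, Real.norm_eq_abs, abs_mul]
      calc |z| * |Real.cos α| ≤ |z| * 1 :=
            mul_le_mul_of_nonneg_left (Real.abs_cos_le_one α) (abs_nonneg z)
        _ = |z| := mul_one _
    have h := Complex.exp_bound (x := Complex.I * ((z * Real.cos α : ℝ) : ℂ))
      (hx.trans hz) (n := 3) (by norm_num)
    have e : (∑ m ∈ Finset.range 3, (Complex.I * ((z * Real.cos α : ℝ) : ℂ)) ^ m
        / (m.factorial : ℂ)) = p α := by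
      rw [hp]
      simp only [Finset.sum_range_succ, Finset.sum_range_zero, Nat.factorial]
      push_cast
      have hI : Complex.I ^ 2 = -1 := Complex.I_sq
      ring_nf
      rw [hI]
      ring
    rw [e] at h
    refine h.trans ?_
    have h3 : ‖Complex.I * ((z * Real.cos α : ℝ) : ℂ)‖ ^ 3 ≤ |z| ^ 3 :=
      pow_le_pow_left₀ (norm_nonneg _) hx 3
    calc ‖Complex.I * ((z * Real.cos α : ℝ) : ℂ)‖ ^ 3
          * (((3 : ℕ).succ : ℝ) * (((3 : ℕ).factorial : ℝ) * ((3 : ℕ) : ℝ))⁻¹)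
        ≤ |z| ^ 3 * (((3 : ℕ).succ : ℝ) * (((3 : ℕ).factorial : ℝ) * ((3 : ℕ) : ℝ))⁻¹) :=
          mul_le_mul_of_nonneg_right h3 (by positivity)
      _ = 2 / 9 * |z| ^ 3 := by
          simp only [Nat.factorial, Nat.succ_eq_add_one]
          push_cast
          ring
  -- the integral of the Taylor polynomial
  have hpint : ∫ α in (0 : ℝ)..(2 * Real.pi), p α
      = ((2 * Real.pi : ℝ) : ℂ) * (1 - ((z ^ 2 / 4 : ℝ) : ℂ)) := by
    have h1 : ∫ α in (0 : ℝ)..(2 * Real.pi), Real.cos α = 0 := by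
      rw [integral_cos]; simp
    have h2 : ∫ α in (0 : ℝ)..(2 * Real.pi), Real.cos α ^ 2 = Real.pi := by
      rw [integral_cos_sq]; simp
    have e : p = fun α => ((1 + (-(z ^ 2 / 2)) * Real.cos α ^ 2 : ℝ) : ℂ)
        + (Complex.I * (z : ℂ)) * ((Real.cos α : ℝ) : ℂ) := by
      funext α
      rw [hp]
      push_cast
      ring
    have c1 : Continuous fun α : ℝ => ((1 + (-(z ^ 2 / 2)) * Real.cos α ^ 2 : ℝ) : ℂ) := by
      fun_prop
    have c2 : Continuous fun α : ℝ => (Complex.I * (z : ℂ)) * ((Real.cos α : ℝ) : ℂ) := by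
      fun_prop
    have c3 : Continuous fun α : ℝ => (-(z ^ 2 / 2)) * Real.cos α ^ 2 := by fun_prop
    rw [e, intervalIntegral.integral_add (c1.intervalIntegrable _ _) (c2.intervalIntegrable _ _),
      intervalIntegral.integral_const_mul, intervalIntegral.integral_ofReal,
      intervalIntegral.integral_ofReal, h1,
      intervalIntegral.integral_add (continuous_const.intervalIntegrable _ _)
        (c3.intervalIntegrable _ _),
      intervalIntegral.integral_const_mul, h2]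
    simp only [intervalIntegral.integral_const, sub_zero, smul_eq_mul, mul_one]
    push_cast
    ring
  have hcpi : ((2 * Real.pi : ℝ) : ℂ) ≠ 0 := Complex.ofReal_ne_zero.2 hpi.ne'
  have key : besJ z - (1 - ((z ^ 2 / 4 : ℝ) : ℂ))
      = ((2 * Real.pi : ℝ) : ℂ)⁻¹ * ∫ α in (0 : ℝ)..(2 * Real.pi), (g α - p α) := by
    rw [intervalIntegral.integral_sub (hgc.intervalIntegrable _ _) (hpc.intervalIntegrable _ _),
      hpint, mul_sub, ← mul_assoc, inv_mul_cancel₀ hcpi, one_mul]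
    rfl
  rw [key, norm_mul, norm_inv, Complex.norm_real, Real.norm_eq_abs, abs_of_pos hpi]
  have hb := intervalIntegral.norm_integral_le_of_norm_le_const (a := 0) (b := 2 * Real.pi)
    (f := fun α => g α - p α) (C := 2 / 9 * |z| ^ 3) (fun α _ => hpt α)
  rw [sub_zero, abs_of_pos hpi] at hb
  calc (2 * Real.pi)⁻¹ * ‖∫ α in (0 : ℝ)..(2 * Real.pi), (g α - p α)‖
      ≤ (2 * Real.pi)⁻¹ * (2 / 9 * |z| ^ 3 * (2 * Real.pi)) :=
        mul_le_mul_of_nonneg_left hb (by positivity)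
    _ = 2 / 9 * |z| ^ 3 := by field_simp

/-! ## Elementary bounds -/

/-- `|cosh x - 1 - x²/2| ≤ (5/96) x⁴` for `|x| ≤ 1`. -/
theorem cosh_bound655 {x : ℝ} (hx : |x| ≤ 1) :
    |Real.cosh x - 1 - x ^ 2 / 2| ≤ 5 / 96 * x ^ 4 := by
  have h1 := Real.exp_bound hx (n := 4) (by norm_num)
  have hx' : |(-x)| ≤ 1 := by rwa [abs_neg]
  have h2 := Real.exp_bound hx' (n := 4) (by norm_num)
  simp only [Finset.sum_range_succ, Finset.sum_range_zero, Nat.factorial, Nat.succ_eq_add_one]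
    at h1 h2
  rw [abs_neg] at h2
  have hx4 : |x| ^ 4 = x ^ 4 := by
    rw [show (4 : ℕ) = 2 * 2 by norm_num, pow_mul, sq_abs, ← pow_mul]
  rw [hx4] at h1 h2
  rw [Real.cosh_eq]
  rw [abs_le] at h1 h2 ⊢
  norm_num at h1 h2
  constructor <;> nlinarith [h1.1, h1.2, h2.1, h2.2]

/-- For `|t| ≤ d ≤ 1`: `0 ≤ cosh d - cosh t ≤ d²` and
`|cosh d - cosh t - (d² - t²)/2| ≤ d³`. -/
theorem c_bounds655 {t d : ℝ} (hd0 : 0 < d) (hd1 : d ≤ 1) (ht : |t| ≤ d) :
    0 ≤ Real.cosh d - Real.cosh t ∧ Real.cosh d - Real.cosh t ≤ d ^ 2 ∧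
      |Real.cosh d - Real.cosh t - (d ^ 2 - t ^ 2) / 2| ≤ d ^ 3 := by
  have hdabs : |d| = d := abs_of_pos hd0
  have ht1 : |t| ≤ 1 := ht.trans hd1
  have hcd := cosh_bound655 (x := d) (by rw [hdabs]; exact hd1)
  have hct := cosh_bound655 (x := t) ht1
  have h0 : Real.cosh t ≤ Real.cosh d := by
    rw [Real.cosh_le_cosh, hdabs]; exact ht
  have h1 : 1 ≤ Real.cosh t := Real.one_le_cosh t
  have hd2 : d ^ 2 ≤ 1 := by nlinarith
  have hd3 : d ^ 4 ≤ d ^ 3 := by
    have : 0 ≤ d ^ 3 := by positivity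
    nlinarith
  have hd4 : d ^ 4 ≤ d ^ 2 := by
    have : 0 ≤ d ^ 2 := by positivity
    nlinarith
  have ht2 : t ^ 2 ≤ d ^ 2 := by
    rw [← sq_abs t]; exact pow_le_pow_left₀ (abs_nonneg t) ht 2
  have ht4 : t ^ 4 ≤ d ^ 4 := by
    have e1 : t ^ 4 = (t ^ 2) ^ 2 := by ring
    have e2 : d ^ 4 = (d ^ 2) ^ 2 := by ring
    rw [e1, e2]
    exact pow_le_pow_left₀ (sq_nonneg t) ht2 2
  have ht40 : 0 ≤ t ^ 4 := by positivity
  rw [abs_le] at hcd hct
  refine ⟨by linarith, by linarith [hcd.2], ?_⟩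
  rw [abs_le]
  constructor <;> linarith [hcd.1, hcd.2, hct.1, hct.2]

/-- The argument of the kernel. -/
def zf655 (k s d t : ℝ) : ℝ :=
  k * Real.exp s * Real.sqrt (2 * Real.exp t * (Real.cosh d - Real.cosh t))

theorem continuous_zf655 (k s d : ℝ) : Continuous (zf655 k s d) := by
  unfold zf655
  fun_prop

/-- The pointwise expansion `1 - J(z(t,d)) = (A/4)(d² - t²) + O(d³)`, `A = k² e^{2s}`. -/
theorem rho_bound655 (k s : ℝ) {t d : ℝ} (hd0 : 0 < d) (hd1 : d ≤ 1)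
    (hdB : d * (6 * (k ^ 2 * Real.exp (2 * s)) + 1) ≤ 1) (ht : |t| ≤ d) :
    ‖1 - besJ (zf655 k s d t)
        - (((k ^ 2 * Real.exp (2 * s)) / 4 * (d ^ 2 - t ^ 2) : ℝ) : ℂ)‖
      ≤ (2 / 9 * (6 * (k ^ 2 * Real.exp (2 * s)) + 1) ^ 3
          + 3 * (k ^ 2 * Real.exp (2 * s)) / 2) * d ^ 3 := by
  set A : ℝ := k ^ 2 * Real.exp (2 * s) with hA
  have hA0 : 0 ≤ A := by positivity
  set B : ℝ := 6 * A + 1 with hB
  have hB1 : 1 ≤ B := by linarith
  obtain ⟨hc0, hc2, hc3⟩ := c_bounds655 hd0 hd1 ht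
  set c : ℝ := Real.cosh d - Real.cosh t with hc
  set z : ℝ := zf655 k s d t with hz
  have ht1 : |t| ≤ 1 := ht.trans hd1
  have het0 : 0 < Real.exp t := Real.exp_pos t
  have het3 : Real.exp t ≤ 3 := by
    have h1 : Real.exp t ≤ Real.exp 1 := Real.exp_le_exp.2 ((le_abs_self t).trans ht1)
    exact h1.trans Real.exp_one_lt_three.le
  have het1 : |Real.exp t - 1| ≤ 2 * d :=
    (Real.abs_exp_sub_one_le ht1).trans (by linarith)
  -- `z² = 2 A eᵗ c`
  have hz2 : z ^ 2 = 2 * A * Real.exp t * c := by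
    rw [hz, zf655, mul_pow, mul_pow, Real.sq_sqrt (by positivity), hA]
    have : Real.exp (2 * s) = Real.exp s ^ 2 := by
      rw [two_mul, Real.exp_add]; ring
    rw [this]; ring
  have hz2le : z ^ 2 ≤ B * d ^ 2 := by
    rw [hz2]
    have h1 : Real.exp t * c ≤ 3 * d ^ 2 :=
      mul_le_mul het3 hc2 hc0 (by norm_num)
    have hd2 : 0 ≤ d ^ 2 := by positivity
    nlinarith
  have hzabs : |z| ≤ B * d := by
    apply abs_le_of_sq_le_sq _ (by positivity)
    have hd2 : 0 ≤ d ^ 2 := by positivity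
    have : B * d ^ 2 ≤ B ^ 2 * d ^ 2 := by
      apply mul_le_mul_of_nonneg_right _ hd2
      nlinarith
    rw [mul_pow]
    exact hz2le.trans this
  have hz1 : |z| ≤ 1 := hzabs.trans (by rw [mul_comm]; exact hdB)
  have hJ := besJ_bound655 hz1
  have hz3 : |z| ^ 3 ≤ B ^ 3 * d ^ 3 := by
    rw [← mul_pow]
    exact pow_le_pow_left₀ (abs_nonneg z) hzabs 3
  -- the algebraic part
  have halg : |z ^ 2 / 4 - A / 4 * (d ^ 2 - t ^ 2)| ≤ 3 * A / 2 * d ^ 3 := by
    have e : z ^ 2 / 4 - A / 4 * (d ^ 2 - t ^ 2)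
        = A / 2 * ((Real.exp t - 1) * c + (c - (d ^ 2 - t ^ 2) / 2)) := by
      rw [hz2]; ring
    rw [e, abs_mul, abs_of_nonneg (by positivity : (0 : ℝ) ≤ A / 2)]
    have h1 : |(Real.exp t - 1) * c| ≤ 2 * d * d ^ 2 := by
      rw [abs_mul, abs_of_nonneg hc0]
      exact mul_le_mul het1 hc2 hc0 (by positivity)
    have h2 : |(Real.exp t - 1) * c + (c - (d ^ 2 - t ^ 2) / 2)| ≤ 3 * d ^ 3 :=
      (abs_add_le _ _).trans (by linarith)
    calc A / 2 * |(Real.exp t - 1) * c + (c - (d ^ 2 - t ^ 2) / 2)|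
        ≤ A / 2 * (3 * d ^ 3) := mul_le_mul_of_nonneg_left h2 (by positivity)
      _ = 3 * A / 2 * d ^ 3 := by ring
  have e : 1 - besJ z - ((A / 4 * (d ^ 2 - t ^ 2) : ℝ) : ℂ)
      = -(besJ z - (1 - ((z ^ 2 / 4 : ℝ) : ℂ)))
        + ((z ^ 2 / 4 - A / 4 * (d ^ 2 - t ^ 2) : ℝ) : ℂ) := by
    push_cast; ring
  rw [e]
  refine (norm_add_le _ _).trans ?_
  rw [norm_neg, Complex.norm_real, Real.norm_eq_abs]
  have : 2 / 9 * |z| ^ 3 ≤ 2 / 9 * (B ^ 3 * d ^ 3) :=
    mul_le_mul_of_nonneg_left hz3 (by norm_num)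
  calc ‖besJ z - (1 - ((z ^ 2 / 4 : ℝ) : ℂ))‖ + |z ^ 2 / 4 - A / 4 * (d ^ 2 - t ^ 2)|
      ≤ 2 / 9 * (B ^ 3 * d ^ 3) + 3 * A / 2 * d ^ 3 := add_le_add (hJ.trans this) halg
    _ = (2 / 9 * B ^ 3 + 3 * A / 2) * d ^ 3 := by ring

/-- `∫_{-d}^{d} (A/4)(d² - t²) dt = (A/3) d³`. -/
theorem integral_quad655 (A d : ℝ) :
    ∫ t in (-d)..d, (A / 4 * (d ^ 2 - t ^ 2)) = A / 3 * d ^ 3 := by
  have c1 : Continuous fun _ : ℝ => d ^ 2 := continuous_const
  have c2 : Continuous fun t : ℝ => t ^ 2 := by fun_prop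
  rw [intervalIntegral.integral_const_mul,
    intervalIntegral.integral_sub (c1.intervalIntegrable _ _) (c2.intervalIntegrable _ _),
    intervalIntegral.integral_const, integral_pow]
  simp only [smul_eq_mul]
  norm_num
  ring

/-! ## The sub-leaf -/

/-- **T2.10.08.09 `GenLaplC`**, VERBATIM. -/
theorem genLaplC655 : GenLaplC := by
  intro k H hH s
  obtain ⟨hHc, hHeq⟩ := hH
  set A : ℝ := k ^ 2 * Real.exp (2 * s) with hA
  have hA0 : 0 ≤ A := by positivity
  set B : ℝ := 6 * A + 1 with hB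
  have hB1 : 1 ≤ B := by linarith
  set C : ℝ := 2 / 9 * B ^ 3 + 3 * A / 2 with hC
  have hC0 : 0 ≤ C := by positivity
  unfold HasGenSecond
  rw [Metric.tendsto_nhdsWithin_nhds]
  intro ε hε
  set ε' : ℝ := ε / (A + 1) with hε'
  have hε'0 : 0 < ε' := by positivity
  obtain ⟨δ₀, hδ₀, hcont⟩ := Metric.continuous_iff.1 hHc s ε' hε'0
  set M : ℝ := ‖H s‖ + ε' with hM
  have hM0 : 0 ≤ M := by positivity
  have hCM : 0 < 2 * (C * M + 1) := by positivity
  refine ⟨min (min 1 δ₀) (min (1 / B) (ε / (2 * (C * M + 1)))),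
    lt_min (lt_min one_pos hδ₀) (lt_min (by positivity) (by positivity)), ?_⟩
  intro d hd hdδ
  have hd0 : 0 < d := hd
  rw [Real.dist_eq, sub_zero, abs_of_pos hd0] at hdδ
  have hd1 : d < 1 := hdδ.trans_le ((min_le_left _ _).trans (min_le_left _ _))
  have hdδ₀ : d < δ₀ := hdδ.trans_le ((min_le_left _ _).trans (min_le_right _ _))
  have hdB : d < 1 / B := hdδ.trans_le ((min_le_right _ _).trans (min_le_left _ _))
  have hdε : d < ε / (2 * (C * M + 1)) :=
    hdδ.trans_le ((min_le_right _ _).trans (min_le_right _ _))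
  have hdB' : d * B ≤ 1 := by
    rw [lt_div_iff₀ (by linarith)] at hdB; exact hdB.le
  -- the integrand
  set F : ℝ → ℂ := fun t => (1 - besJ (zf655 k s d t)) * H (s + t)
      - ((A / 4 * (d ^ 2 - t ^ 2) : ℝ) : ℂ) * H s with hF
  -- pointwise bound
  have hFb : ∀ t ∈ Set.uIoc (-d) d, ‖F t‖ ≤ A / 4 * d ^ 2 * ε' + C * d ^ 3 * M := by
    intro t ht
    rw [Set.uIoc_of_le (by linarith)] at ht
    have htd : |t| ≤ d := abs_le.2 ⟨ht.1.le, ht.2⟩
    have hρ := rho_bound655 k s hd0 hd1.le hdB' htd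
    have hH1 : ‖H (s + t) - H s‖ ≤ ε' := by
      have := hcont (s + t) (by rw [Real.dist_eq]; simpa using htd.trans_lt hdδ₀)
      rw [dist_eq_norm] at this
      exact this.le
    have hH2 : ‖H (s + t)‖ ≤ M := by
      have e : H (s + t) = H s + (H (s + t) - H s) := by ring
      rw [e]
      exact (norm_add_le _ _).trans (by linarith)
    have e : F t = ((A / 4 * (d ^ 2 - t ^ 2) : ℝ) : ℂ) * (H (s + t) - H s)
        + (1 - besJ (zf655 k s d t) - ((A / 4 * (d ^ 2 - t ^ 2) : ℝ) : ℂ)) * H (s + t) := by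
      rw [hF]; ring
    rw [e]
    refine (norm_add_le _ _).trans ?_
    rw [norm_mul, norm_mul, Complex.norm_real, Real.norm_eq_abs]
    have ht2 : t ^ 2 ≤ d ^ 2 := by
      rw [← sq_abs t]; exact pow_le_pow_left₀ (abs_nonneg t) htd 2
    have h1 : |A / 4 * (d ^ 2 - t ^ 2)| ≤ A / 4 * d ^ 2 := by
      rw [abs_of_nonneg (mul_nonneg (by positivity) (by linarith))]
      nlinarith [sq_nonneg t]
    exact add_le_add (mul_le_mul h1 hH1 (norm_nonneg _) (by positivity))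
      (mul_le_mul hρ hH2 (norm_nonneg _) (by positivity))
  have hint := intervalIntegral.norm_integral_le_of_norm_le_const hFb
  -- the integral of `F`
  have hI : ∫ t in (-d)..d, F t
      = (∫ t in (-d)..d, H (s + t)) - ((2 * d : ℝ) : ℂ) * H s
        - ((A / 3 * d ^ 3 : ℝ) : ℂ) * H s := by
    have c1 : Continuous fun t => H (s + t) := hHc.comp (continuous_const_add s)
    have c2 : Continuous fun t => besJ (zf655 k s d t) * H (s + t) :=
      (continuous_besJ655.comp (continuous_zf655 k s d)).mul c1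
    have c3 : Continuous fun t : ℝ => ((A / 4 * (d ^ 2 - t ^ 2) : ℝ) : ℂ) * H s := by
      fun_prop
    have c12 : Continuous fun t => H (s + t) - besJ (zf655 k s d t) * H (s + t) := c1.sub c2
    have h2 : ∫ t in (-d)..d, besJ (zf655 k s d t) * H (s + t) = ((2 * d : ℝ) : ℂ) * H s :=
      hHeq s d hd0
    calc ∫ t in (-d)..d, F t
        = ∫ t in (-d)..d, ((H (s + t) - besJ (zf655 k s d t) * H (s + t))
            - ((A / 4 * (d ^ 2 - t ^ 2) : ℝ) : ℂ) * H s) := by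
          refine intervalIntegral.integral_congr fun t _ => ?_
          simp only [hF]; ring
      _ = (∫ t in (-d)..d, (H (s + t) - besJ (zf655 k s d t) * H (s + t)))
            - ∫ t in (-d)..d, ((A / 4 * (d ^ 2 - t ^ 2) : ℝ) : ℂ) * H s :=
          intervalIntegral.integral_sub (c12.intervalIntegrable _ _)
            (c3.intervalIntegrable _ _)
      _ = ((∫ t in (-d)..d, H (s + t)) - ∫ t in (-d)..d, besJ (zf655 k s d t) * H (s + t))
            - ∫ t in (-d)..d, ((A / 4 * (d ^ 2 - t ^ 2) : ℝ) : ℂ) * H s := by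
          rw [intervalIntegral.integral_sub (c1.intervalIntegrable _ _)
            (c2.intervalIntegrable _ _)]
      _ = (∫ t in (-d)..d, H (s + t)) - ((2 * d : ℝ) : ℂ) * H s
            - ((A / 3 * d ^ 3 : ℝ) : ℂ) * H s := by
          rw [h2, intervalIntegral.integral_mul_const, intervalIntegral.integral_ofReal,
            integral_quad655]
  have hdc : ((d : ℝ) : ℂ) ≠ 0 := Complex.ofReal_ne_zero.2 hd0.ne'
  have key : (((2 * d : ℝ) : ℂ)⁻¹ * (∫ t in (-d)..d, H (s + t)) - H s) / ((d ^ 2 : ℝ) : ℂ)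
      - ((A : ℝ) : ℂ) * H s / 6 = (∫ t in (-d)..d, F t) / ((2 * d ^ 3 : ℝ) : ℂ) := by
    rw [hI]
    push_cast
    field_simp
    ring
  rw [dist_eq_norm, key, norm_div, Complex.norm_real, Real.norm_eq_abs,
    abs_of_pos (by positivity : (0 : ℝ) < 2 * d ^ 3), div_lt_iff₀ (by positivity)]
  have hdd : |d - -d| = 2 * d := by
    rw [sub_neg_eq_add, abs_of_pos (by linarith)]; ring
  rw [hdd] at hint
  refine hint.trans_lt ?_
  have h1 : A / 4 * ε' ≤ ε / 4 := by
    rw [hε']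
    rw [show A / 4 * (ε / (A + 1)) = ε / 4 * (A / (A + 1)) by ring]
    have : A / (A + 1) ≤ 1 := by
      rw [div_le_one (by linarith)]; linarith
    nlinarith
  have h2 : C * M * d < ε / 2 := by
    rw [lt_div_iff₀ hCM] at hdε
    nlinarith [mul_nonneg hC0 hM0]
  have hd3 : 0 < d ^ 3 := by positivity
  have e : (A / 4 * d ^ 2 * ε' + C * d ^ 3 * M) * (2 * d)
      = (A / 4 * ε' + C * M * d) * (2 * d ^ 3) := by ring
  rw [e]
  exact mul_lt_mul_of_pos_right (by linarith) (by positivity)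

end Fermat.Agent.LT.T2.H655

end
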