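import Mathlib
import Fermat.Agent.LT.H556.A0
import Fermat.Agent.LT.T1.Spec
import Fermat.Agent.LT.T2.Spec
import Fermat.Agent.LT.T3.Spec
import Fermat.Agent.LT.T2.H941.SmoSpec

/-!
# Row LT, tower T2, sub-leaf T2.10.02 `WhitDataExistsC` (helper655) — OFF-MAIN

Spec bytes: `T2/H941/SmoSpec.lean` = helper941@8afa9067a (sha256 41255efa), `T2/Spec.lean`
(sha256 1b305586), `T3/Spec.lean` (sha256 44de320b), `T1/Spec.lean` (sha256 e8ae48d6),
`H556/A0.lean` (sha256 66d3374a), byte-identical copies.

PROVED here: `leaf02_655 : T2.H941.Leaf02 K`, VERBATIM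
(`T1.T1Out K → T3.GoodCharExistsC K → WhitDataExistsC K`): the character of T3, the Haar measure
`Measure.addHaar` of the locally compact group `𝔸_K` (`T1.LocCompC`) and the Borel fundamental
domain of `T1.AddFundDomC`.
-/

set_option autoImplicit false

open IsDedekindDomain NumberField MeasureTheory
open Fermat.Agent.LT.H556.A0

noncomputable section

namespace Fermat.Agent.LT.T2.H655

variable {K : Type} [Field K] [NumberField K]

/-- **T2.10.02 `WhitDataExistsC`**, VERBATIM. -/
theorem leaf02_655 (K : Type) [Field K] [NumberField K] : T2.H941.Leaf02 K := by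
  intro hT hψ
  let _ : MeasurableSpace (Adl K) := borel (Adl K)
  have : BorelSpace (Adl K) := ⟨rfl⟩
  have : LocallyCompactSpace (Adl K) := hT.locComp.1.1
  obtain ⟨ψ, h1, h2, h3⟩ := hψ
  obtain ⟨D, hDm, hDf, -, -, hDfin⟩ :=
    hT.addFundDom (Measure.addHaar : Measure (Adl K)) inferInstance
  exact ⟨ψ, Measure.addHaar, D, h1, h2, h3, inferInstance, hDm, hDf, hDfin⟩

end Fermat.Agent.LT.T2.H655

end
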